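import Mathlib
import Fermat.Agent.LT.T6.H634.EllCut2
import Fermat.Agent.LT.T6.H281.CartanR
import Fermat.Agent.LT.T6.H514.CartanCC
import Fermat.Agent.LT.T6.H569.IwaHomeoR
import Fermat.Agent.LT.T6.H441.PolCBasic

/-!
# Row LT, tower T6, leaf T6.20e.2c `ProfAbelC634`, part 1 (helper833) -- OFF-MAIN

Spec bytes: `T6/H634/EllCut2.lean` = helper634@2bcabb618 (sha256 07b34a13) and its closure,
byte-identical.  Assets (byte-identical copies, all unconditional):
`T6/H281/CartanR.lean` (cf11533e, `cartanRC_h281`), `T6/H514/CartanCC.lean` (78ef6b97,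
`cartanCC514`; with `T2/H555/CartanInf.lean` 48c6cc47), `T6/H569/IwaHomeoR.lean` (de62075e,
continuity of `dgR`, `unR`), `T6/H441/PolCBasic.lean` (f292b111, continuity of `dgC`, `unC`,
`ρ` of the Borel elements).

PROVED here (the group-theoretic half of the leaf):
* `realProf833` : a test function `f` of weight `n` on `GL₂(ℝ)` is
  `f g = (wtPhase n g)⁻¹ · prof0_634 f (det g) (rhoP g)` on `det > 0`;
* `cplxProf833` : a bi-`U(2)`-invariant `φ` on `GL₂(ℂ)` is
  `φ M = profC634 φ (‖det M‖²) (rhoQ M)`;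
* `isProfile_prof0_833`, `isProfile_prof1_833`, `isProfile_profC833` : the three profiles are
  profiles in the sense of `H781`.
-/

set_option autoImplicit false

open scoped Matrix
open MeasureTheory

noncomputable section

namespace Fermat.Agent.LT.T6.H833

open Fermat.Agent.LT.T6 Fermat.Agent.LT.T6.H189 Fermat.Agent.LT.T6.H634
open Fermat.Agent.LT.T6.H781 Fermat.Agent.LT.T6.H569 Fermat.Agent.LT.T6.H441

/-! ## The diagonal elements -/

theorem radT_eq_arcosh833 (ρ : ℝ) : radT634 ρ = Real.arcosh ρ := rfl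

theorem dgR_mul833 (u₁ u₂ v₁ v₂ : ℝ) : dgR u₁ u₂ * dgR v₁ v₂ = dgR (u₁ + v₁) (u₂ + v₂) := by
  apply Units.ext
  rw [Units.val_mul, dgR_val569, dgR_val569, dgR_val569]
  simp only [Matrix.mul_fin_two, mul_zero, zero_mul, add_zero, zero_add, Real.exp_add]

theorem sclR_mul_atR833 (r t : ℝ) : sclR r * atR t = dgR (r + t / 2) (r - t / 2) := by
  unfold sclR atR
  rw [dgR_mul833, sub_eq_add_neg]

theorem sclC_mul_atC833 (r t : ℝ) : sclC r * atC t = dgC (r + t / 2) (r - t / 2) := by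
  unfold sclC atC
  rw [dgC_mul441, sub_eq_add_neg]

/-- The positive scalars are central in `GL₂(ℝ)`. -/
theorem sclR_comm833 (r : ℝ) (g : GL (Fin 2) ℝ) : g * sclR r = sclR r * g := by
  apply Units.ext
  rw [Units.val_mul, Units.val_mul]
  have h : (sclR r : Matrix (Fin 2) (Fin 2) ℝ)
      = Real.exp r • (1 : Matrix (Fin 2) (Fin 2) ℝ) := by
    unfold sclR
    rw [dgR_val569]
    ext i j
    fin_cases i <;> fin_cases j <;> simp
  rw [h, Matrix.mul_smul, Matrix.smul_mul, Matrix.mul_one, Matrix.one_mul]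

theorem prof0_eq833 (f : GL (Fin 2) ℝ → ℂ) (D ρ : ℝ) :
    prof0_634 f D ρ = f (sclR (Real.log D / 2) * atR (Real.arcosh ρ)) := by
  rw [sclR_mul_atR833]
  rfl

theorem profC_eq833 (φ : GL (Fin 2) ℂ → ℂ) (D ρ : ℝ) :
    profC634 φ D ρ = φ (sclC (Real.log D / 4) * atC (Real.arcosh ρ)) := by
  rw [sclC_mul_atC833]
  rfl

/-! ## The rotations and the phase -/

theorem rotR_val833 (θ : ℝ) :
    (rotR θ : Matrix (Fin 2) (Fin 2) ℝ)
      = !![Real.cos θ, -Real.sin θ; Real.sin θ, Real.cos θ] := rfl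

theorem inSO2_rotR833 (θ : ℝ) : InSO2 (rotR θ) := by
  have h := Real.cos_sq_add_sin_sq θ
  constructor
  · rw [rotR_val833]
    ext i j
    fin_cases i <;> fin_cases j <;>
      simp [Matrix.mul_apply, Fin.sum_univ_two, Matrix.transpose_apply] <;> nlinarith [h]
  · rw [rotR_val833, Matrix.det_fin_two_of]
    nlinarith [h]

/-- `e^{iθ}`. -/
def cis833 (θ : ℝ) : ℂ := ((Real.cos θ : ℝ) : ℂ) + ((Real.sin θ : ℝ) : ℂ) * Complex.I

theorem cis_add833 (θ₁ θ₂ : ℝ) : cis833 (θ₁ + θ₂) = cis833 θ₁ * cis833 θ₂ := by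
  unfold cis833
  rw [Real.cos_add, Real.sin_add]
  simp only [Complex.ofReal_sub, Complex.ofReal_add, Complex.ofReal_mul]
  linear_combination (-((Real.sin θ₁ : ℝ) : ℂ) * ((Real.sin θ₂ : ℝ) : ℂ)) * Complex.I_sq

theorem norm_cis833 (θ : ℝ) : ‖cis833 θ‖ = 1 := by
  unfold cis833
  rw [Complex.norm_add_mul_I, Real.cos_sq_add_sin_sq, Real.sqrt_one]

theorem holPart_rotR833 (θ : ℝ) : holPart (rotR θ) = cis833 θ := by
  unfold holPart cis833
  rw [rotR_val833]
  simp only [Matrix.of_apply, Matrix.cons_val', Matrix.cons_val_zero, Matrix.cons_val_one,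
    Matrix.cons_val_fin_one]
  push_cast
  ring

/-- The holomorphic part of `e^r k_{θ₁} a_t k_{θ₂}`. -/
theorem holPart_pol833 (r θ₁ t θ₂ : ℝ) :
    holPart (sclR r * rotR θ₁ * atR t * rotR θ₂)
      = ((Real.exp r * Real.cosh (t / 2) : ℝ) : ℂ) * cis833 (θ₁ + θ₂) := by
  unfold holPart cis833
  rw [H281.polEntries281, Real.cos_add, Real.sin_add, Real.cosh_eq]
  simp only [Matrix.of_apply, Matrix.cons_val', Matrix.cons_val_zero, Matrix.cons_val_one,
    Matrix.cons_val_fin_one]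
  push_cast
  ring

theorem wtPhase_pol833 (n : ℤ) (r θ₁ t θ₂ : ℝ) :
    wtPhase n (sclR r * rotR θ₁ * atR t * rotR θ₂)
      = wtChar n (rotR θ₁) * wtChar n (rotR θ₂) := by
  unfold wtPhase wtChar
  rw [holPart_pol833, holPart_rotR833, holPart_rotR833, ← mul_zpow, ← cis_add833]
  have hpos : 0 < Real.exp r * Real.cosh (t / 2) := mul_pos (Real.exp_pos _) (Real.cosh_pos _)
  have hne : ((Real.exp r * Real.cosh (t / 2) : ℝ) : ℂ) ≠ 0 := by exact_mod_cast hpos.ne'
  rw [norm_mul, norm_cis833, mul_one, Complex.norm_real, Real.norm_eq_abs, abs_of_pos hpos]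
  congr 1
  field_simp

/-! ## The profile formulas -/

/-- **The real profile formula.** -/
theorem realProf833 {n : ℤ} {f : GL (Fin 2) ℝ → ℂ} (hf : IsArchTestR n f)
    (g : GL (Fin 2) ℝ) (hg : 0 < (g : Matrix (Fin 2) (Fin 2) ℝ).det) :
    f g = (wtPhase n g)⁻¹ *
      prof0_634 f (g : Matrix (Fin 2) (Fin 2) ℝ).det (rhoP g) := by
  obtain ⟨-, θ₁, θ₂, hdec⟩ := H281.cartanRC_h281 g hg
  set r : ℝ := Real.log (g : Matrix (Fin 2) (Fin 2) ℝ).det / 2 with hr
  set t : ℝ := Real.arcosh (rhoP g) with ht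
  have e1 : sclR r * rotR θ₁ * atR t * rotR θ₂ = rotR θ₁ * ((sclR r * atR t) * rotR θ₂) := by
    rw [← sclR_comm833 r (rotR θ₁)]
    group
  have hval : f g = (wtChar n (rotR θ₁))⁻¹ * ((wtChar n (rotR θ₂))⁻¹ * f (sclR r * atR t)) := by
    conv_lhs => rw [hdec, e1]
    rw [hf.left _ _ (inSO2_rotR833 θ₁), hf.right _ _ (inSO2_rotR833 θ₂)]
  have hph : wtPhase n g = wtChar n (rotR θ₁) * wtChar n (rotR θ₂) := by
    conv_lhs => rw [hdec]
    exact wtPhase_pol833 n r θ₁ t θ₂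
  rw [hval, hph, prof0_eq833, mul_inv, mul_assoc]

/-- **The complex profile formula.** -/
theorem cplxProf833 {φ : GL (Fin 2) ℂ → ℂ} (hφ : IsArchTestC φ) (M : GL (Fin 2) ℂ) :
    φ M = profC634 φ (‖(M : Matrix (Fin 2) (Fin 2) ℂ).det‖ ^ 2) (rhoQ M) := by
  obtain ⟨-, k₁, hk₁, k₂, hk₂, hdec⟩ := H514.cartanCC514 M
  set r : ℝ := Real.log ‖(M : Matrix (Fin 2) (Fin 2) ℂ).det‖ / 2 with hr
  set t : ℝ := Real.arcosh (rhoQ M) with ht
  have e1 : sclC r * k₁ * atC t * k₂ = k₁ * ((sclC r * atC t) * k₂) := by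
    rw [← sclC_comm441 r k₁]
    group
  have hval : φ M = φ (sclC r * atC t) := by
    conv_lhs => rw [hdec, e1]
    rw [hφ.left _ _ hk₁, hφ.right _ _ hk₂]
  have hlog : Real.log (‖(M : Matrix (Fin 2) (Fin 2) ℂ).det‖ ^ 2) / 4 = r := by
    rw [Real.log_pow, hr]
    push_cast
    ring
  rw [hval, profC_eq833, hlog]

/-! ## The profiles are profiles -/

/-- A compactly supported function on `GL₂(ℝ)` vanishes where the entry `(i, j)` is large. -/
theorem exists_entry_boundR833 {f : GL (Fin 2) ℝ → ℂ} (hf : HasCompactSupport f) (i j : Fin 2) :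
    ∃ C : ℝ, ∀ g : GL (Fin 2) ℝ, C < |(g : Matrix (Fin 2) (Fin 2) ℝ) i j| → f g = 0 := by
  have hcont : Continuous fun g : GL (Fin 2) ℝ => (g : Matrix (Fin 2) (Fin 2) ℝ) i j :=
    (continuous_id.matrix_elem i j).comp Units.continuous_val
  obtain ⟨C, hC⟩ := hf.isCompact.exists_bound_of_continuousOn hcont.continuousOn
  refine ⟨C, fun g hg => ?_⟩
  by_contra h
  have h1 : g ∈ tsupport f := subset_tsupport f h
  have h2 := hC g h1
  rw [Real.norm_eq_abs] at h2
  linarith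

/-- A compactly supported function on `GL₂(ℂ)` vanishes where the entry `(0, 0)` is large. -/
theorem exists_entry_boundC833 {φ : GL (Fin 2) ℂ → ℂ} (hφ : HasCompactSupport φ) :
    ∃ C : ℝ, ∀ g : GL (Fin 2) ℂ, C < ‖(g : Matrix (Fin 2) (Fin 2) ℂ) 0 0‖ → φ g = 0 := by
  have hcont : Continuous fun g : GL (Fin 2) ℂ => (g : Matrix (Fin 2) (Fin 2) ℂ) 0 0 :=
    (continuous_id.matrix_elem 0 0).comp Units.continuous_val
  obtain ⟨C, hC⟩ := hφ.isCompact.exists_bound_of_continuousOn hcont.continuousOn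
  refine ⟨C, fun g hg => ?_⟩
  by_contra h
  have h1 : g ∈ tsupport φ := subset_tsupport φ h
  have h2 := hC g h1
  linarith

/-- `C < e^{m + arcosh(y) / 2}` for `y` large. -/
theorem exists_radius833 (m C : ℝ) :
    ∃ R : ℝ, ∀ y : ℝ, R ≤ y → C < Real.exp (m + Real.arcosh y / 2) := by
  refine ⟨max 1 (C ^ 2 / Real.exp (2 * m) + 1), fun y hy => ?_⟩
  have hy1 : 1 ≤ y := (le_max_left _ _).trans hy
  have hy2 : C ^ 2 / Real.exp (2 * m) + 1 ≤ y := (le_max_right _ _).trans hy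
  have hm : 0 < Real.exp (2 * m) := Real.exp_pos _
  have h1 : C ^ 2 < Real.exp (2 * m) * y := by
    have : C ^ 2 / Real.exp (2 * m) < y := by linarith
    rw [div_lt_iff₀ hm] at this
    linarith
  have h2 : y ≤ Real.exp (Real.arcosh y) := by
    rw [Real.exp_arcosh hy1]
    linarith [Real.sqrt_nonneg (y ^ 2 - 1)]
  have h3 : Real.exp (m + Real.arcosh y / 2) ^ 2 = Real.exp (2 * m) * Real.exp (Real.arcosh y) := by
    rw [← Real.exp_nat_mul, ← Real.exp_add]
    congr 1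
    push_cast
    ring
  have h4 : C ^ 2 < Real.exp (m + Real.arcosh y / 2) ^ 2 := by
    rw [h3]
    exact h1.trans_le (mul_le_mul_of_nonneg_left h2 hm.le)
  have h5 : 0 < Real.exp (m + Real.arcosh y / 2) := Real.exp_pos _
  nlinarith

theorem isProfile_prof0_833 {n : ℤ} {f : GL (Fin 2) ℝ → ℂ} (hf : IsArchTestR n f) (D : ℝ) :
    IsProfile (prof0_634 f D) := by
  constructor
  · have h1 : ContinuousOn (fun ρ : ℝ => Real.log D / 2 + radT634 ρ / 2) (Set.Ici 1) :=
      continuousOn_const.add (Real.continuousOn_arcosh.div_const 2)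
    have h2 : ContinuousOn (fun ρ : ℝ => Real.log D / 2 - radT634 ρ / 2) (Set.Ici 1) :=
      continuousOn_const.sub (Real.continuousOn_arcosh.div_const 2)
    have h3 : ContinuousOn ((fun p : ℝ × ℝ => dgR p.1 p.2) ∘ (fun ρ : ℝ =>
        (Real.log D / 2 + radT634 ρ / 2, Real.log D / 2 - radT634 ρ / 2))) (Set.Ici 1) :=
      continuous_dgR569.comp_continuousOn (h1.prodMk h2)
    have h4 : ContinuousOn (f ∘ ((fun p : ℝ × ℝ => dgR p.1 p.2) ∘ (fun ρ : ℝ =>
        (Real.log D / 2 + radT634 ρ / 2, Real.log D / 2 - radT634 ρ / 2)))) (Set.Ici 1) :=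
      hf.cont.comp_continuousOn h3
    exact h4
  · obtain ⟨C, hC⟩ := exists_entry_boundR833 hf.supp 0 0
    obtain ⟨R, hR⟩ := exists_radius833 (Real.log D / 2) C
    refine ⟨R, fun y hy => ?_⟩
    have e : ((dgR (Real.log D / 2 + radT634 y / 2) (Real.log D / 2 - radT634 y / 2) :
        GL (Fin 2) ℝ) : Matrix (Fin 2) (Fin 2) ℝ) 0 0
        = Real.exp (Real.log D / 2 + Real.arcosh y / 2) := by
      rw [dgR_val569, radT_eq_arcosh833]
      simp only [Matrix.of_apply, Matrix.cons_val', Matrix.cons_val_zero,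
        Matrix.cons_val_fin_one]
    have h := hR y hy
    rw [← abs_of_pos (Real.exp_pos (Real.log D / 2 + Real.arcosh y / 2)), ← e] at h
    exact hC (dgR (Real.log D / 2 + radT634 y / 2) (Real.log D / 2 - radT634 y / 2)) h

theorem isProfile_prof1_833 {n : ℤ} {f : GL (Fin 2) ℝ → ℂ} (hf : IsArchTestR n f) (D : ℝ) :
    IsProfile (prof1_634 f D) := by
  obtain ⟨hc, R, hR⟩ := isProfile_prof0_833 hf D
  constructor
  · refine ContinuousOn.div hc ?_ ?_
    · exact (Complex.continuous_ofReal.comp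
        (Real.continuous_sqrt.comp (continuous_id.add continuous_const))).continuousOn
    · intro ρ hρ
      have hρ' : (1 : ℝ) ≤ ρ := hρ
      have : 0 < Real.sqrt (ρ + 1) := Real.sqrt_pos.2 (by linarith)
      exact_mod_cast this.ne'
  · refine ⟨R, fun y hy => ?_⟩
    unfold prof1_634
    rw [hR y hy, zero_div]

theorem isProfile_profC833 {φ : GL (Fin 2) ℂ → ℂ} (hφ : IsArchTestC φ) (D : ℝ) :
    IsProfile (profC634 φ D) := by
  constructor
  · have h1 : ContinuousOn (fun ρ : ℝ => Real.log D / 4 + radT634 ρ / 2) (Set.Ici 1) :=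
      continuousOn_const.add (Real.continuousOn_arcosh.div_const 2)
    have h2 : ContinuousOn (fun ρ : ℝ => Real.log D / 4 - radT634 ρ / 2) (Set.Ici 1) :=
      continuousOn_const.sub (Real.continuousOn_arcosh.div_const 2)
    have h3 : ContinuousOn ((fun p : ℝ × ℝ => dgC p.1 p.2) ∘ (fun ρ : ℝ =>
        (Real.log D / 4 + radT634 ρ / 2, Real.log D / 4 - radT634 ρ / 2))) (Set.Ici 1) :=
      continuous_dgC441.comp_continuousOn (h1.prodMk h2)
    have h4 : ContinuousOn (φ ∘ ((fun p : ℝ × ℝ => dgC p.1 p.2) ∘ (fun ρ : ℝ =>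
        (Real.log D / 4 + radT634 ρ / 2, Real.log D / 4 - radT634 ρ / 2)))) (Set.Ici 1) :=
      hφ.cont.comp_continuousOn h3
    exact h4
  · obtain ⟨C, hC⟩ := exists_entry_boundC833 hφ.supp
    obtain ⟨R, hR⟩ := exists_radius833 (Real.log D / 4) C
    refine ⟨R, fun y hy => ?_⟩
    have e : ‖((dgC (Real.log D / 4 + radT634 y / 2) (Real.log D / 4 - radT634 y / 2) :
        GL (Fin 2) ℂ) : Matrix (Fin 2) (Fin 2) ℂ) 0 0‖
        = Real.exp (Real.log D / 4 + Real.arcosh y / 2) := by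
      rw [dgC_val441, radT_eq_arcosh833]
      simp only [Matrix.of_apply, Matrix.cons_val', Matrix.cons_val_zero,
        Matrix.cons_val_fin_one]
      rw [Complex.norm_real, Real.norm_eq_abs, abs_of_pos (Real.exp_pos _)]
    have h := hR y hy
    rw [← e] at h
    exact hC (dgC (Real.log D / 4 + radT634 y / 2) (Real.log D / 4 - radT634 y / 2)) h

end Fermat.Agent.LT.T6.H833

end
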