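import Mathlib
import Fermat.Agent.LT.T6.H833.ProfBasic

/-!
# Row LT, tower T6, leaf T6.20e.2c `ProfAbelC634` (helper833) -- OFF-MAIN

Spec bytes: `T6/H634/EllCut2.lean` = helper634@2bcabb618 (sha256 07b34a13), byte-identical.
Part 1 (`ProfBasic.lean`): the profile formulas and the three `IsProfile`.

PROVED here: `profAbelC833 : H634.ProfAbelC634`, VERBATIM.

For `D > 0`, `x ≥ 1`: `t = arcosh x`, `p = log D / 2 + t / 2`, `q = log D / 2 - t / 2`,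
`a = e^p`, `b = e^q` (`a b = D`, `a / b = e^t`), sections `u ξ = diag(a, b) n(ξ)`,
`u' w = diag(√a, √b) n(w)`.
* `f₀(u ξ) = g₀(x + e^t ξ² / 2)`, so `∫ f₀(u ξ) dξ = √2 e^{-t/2} (A g₀)(x)`;
* `φ(u' w) = Φ(cosh (t/2) + e^{t/2} |w|² / 2)`, so `∫ φ(u' w) dw = 2π e^{-t/2} Ψ(cosh (t/2))`
  (polar coordinates; no hypothesis on `Φ`);
* `f₁(u ξ) + f₁(u (-ξ)) = 2 √2 cosh (t/2) G₁(x + e^t ξ² / 2)` (the imaginary part of the phase is
  odd in `ξ`), so `∫ f₁(u ξ) dξ = 2 cosh (t/2) e^{-t/2} (A G₁)(x)`.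
-/

set_option autoImplicit false

open scoped Matrix
open MeasureTheory

noncomputable section

namespace Fermat.Agent.LT.T6.H833

open Fermat.Agent.LT.T6 Fermat.Agent.LT.T6.H189 Fermat.Agent.LT.T6.H634
open Fermat.Agent.LT.T6.H781 Fermat.Agent.LT.T6.H569 Fermat.Agent.LT.T6.H441
open Fermat.Agent.LT.T6.H626

/-! ## Two integrals -/

/-- The radial substitution `τ = c₁ + a₁ r² / 2` (no hypothesis on `Φ`). -/
theorem integral_radial_quad833 (Φ : ℝ → ℂ) (c₁ : ℝ) {a₁ : ℝ} (ha : 0 < a₁) :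
    (∫ r in Set.Ioi (0 : ℝ), r • Φ (c₁ + a₁ * r ^ 2 / 2))
      = ((a₁⁻¹ : ℝ) : ℂ) * ∫ τ in Set.Ioi c₁, Φ τ := by
  have hinj : Set.InjOn (fun r : ℝ => c₁ + a₁ * r ^ 2 / 2) (Set.Ioi 0) := by
    intro r hr s hs h
    have hr' : 0 < r := hr
    have hs' : 0 < s := hs
    have h2 : a₁ * r ^ 2 = a₁ * s ^ 2 := by
      have : c₁ + a₁ * r ^ 2 / 2 = c₁ + a₁ * s ^ 2 / 2 := h
      linarith
    have h3 : r ^ 2 = s ^ 2 := mul_left_cancel₀ ha.ne' h2
    exact (sq_eq_sq₀ hr'.le hs'.le).1 h3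
  have himg : (fun r : ℝ => c₁ + a₁ * r ^ 2 / 2) '' Set.Ioi 0 = Set.Ioi c₁ := by
    ext τ
    constructor
    · rintro ⟨r, hr, rfl⟩
      have hr' : 0 < r := hr
      show c₁ < c₁ + a₁ * r ^ 2 / 2
      have : 0 < a₁ * r ^ 2 / 2 := by positivity
      linarith
    · intro hτ
      have hτ' : c₁ < τ := hτ
      have h1 : 0 < 2 * (τ - c₁) / a₁ := by
        apply div_pos _ ha
        linarith
      refine ⟨Real.sqrt (2 * (τ - c₁) / a₁), Real.sqrt_pos.2 h1, ?_⟩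
      show c₁ + a₁ * Real.sqrt (2 * (τ - c₁) / a₁) ^ 2 / 2 = τ
      rw [Real.sq_sqrt h1.le]
      field_simp
      ring
  have hder : ∀ r ∈ Set.Ioi (0 : ℝ), HasDerivWithinAt (fun r : ℝ => c₁ + a₁ * r ^ 2 / 2)
      (a₁ * r) (Set.Ioi 0) r := by
    intro r _
    have h1 : HasDerivAt (fun r : ℝ => c₁ + a₁ * r ^ 2 / 2) (a₁ * (2 * r) / 2) r := by
      have h0 : HasDerivAt (fun r : ℝ => r ^ 2) (2 * r) r := by
        simpa using hasDerivAt_pow 2 r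
      exact ((h0.const_mul a₁).div_const 2).const_add c₁
    have e : a₁ * (2 * r) / 2 = a₁ * r := by ring
    rw [e] at h1
    exact h1.hasDerivWithinAt
  have h := integral_image_eq_integral_abs_deriv_smul (s := Set.Ioi (0 : ℝ))
    (f := fun r : ℝ => c₁ + a₁ * r ^ 2 / 2) (f' := fun r : ℝ => a₁ * r) measurableSet_Ioi
    hder hinj Φ
  rw [himg] at h
  rw [h, ← integral_const_mul]
  refine setIntegral_congr_fun measurableSet_Ioi fun r hr => ?_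
  have hr' : 0 < r := hr
  show r • Φ (c₁ + a₁ * r ^ 2 / 2) = ((a₁⁻¹ : ℝ) : ℂ) * (|a₁ * r| • Φ (c₁ + a₁ * r ^ 2 / 2))
  rw [abs_of_pos (mul_pos ha hr'), Complex.real_smul, Complex.real_smul, ← mul_assoc,
    ← Complex.ofReal_mul, ← mul_assoc, inv_mul_cancel₀ ha.ne', one_mul]

/-- `∫_ℂ Φ(c₁ + a₁ |w|² / 2) dw = (2π / a₁) ∫_{τ > c₁} Φ(τ) dτ` (no hypothesis on `Φ`). -/
theorem integral_cplx_quad833 (Φ : ℝ → ℂ) (c₁ : ℝ) {a₁ : ℝ} (ha : 0 < a₁) :
    (∫ w : ℂ, Φ (c₁ + a₁ * ‖w‖ ^ 2 / 2))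
      = ((2 * Real.pi / a₁ : ℝ) : ℂ) * tailI Φ c₁ := by
  rw [← Complex.integral_comp_polarCoord_symm]
  have hP : (∫ q in polarCoord.target,
        q.1 • Φ (c₁ + a₁ * ‖Complex.polarCoord.symm q‖ ^ 2 / 2))
      = ∫ q in polarCoord.target,
          (q.1 • Φ (c₁ + a₁ * q.1 ^ 2 / 2)) * (fun _ : ℝ => (1 : ℂ)) q.2 := by
    refine integral_congr_ae (Filter.Eventually.of_forall fun q => ?_)
    show q.1 • Φ (c₁ + a₁ * ‖Complex.polarCoord.symm q‖ ^ 2 / 2) = _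
    rw [Complex.norm_polarCoord_symm, sq_abs]
    exact (mul_one _).symm
  rw [hP]
  have hT2 : polarCoord.target = Set.Ioi (0 : ℝ) ×ˢ Set.Ioo (-Real.pi) Real.pi := rfl
  rw [hT2, Measure.volume_eq_prod, ← Measure.prod_restrict,
    integral_prod_mul (μ := volume.restrict (Set.Ioi (0 : ℝ)))
      (ν := volume.restrict (Set.Ioo (-Real.pi) Real.pi))
      (fun r : ℝ => r • Φ (c₁ + a₁ * r ^ 2 / 2)) (fun _ : ℝ => (1 : ℂ)),
    integral_radial_quad833 Φ c₁ ha]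
  have hpi : (0 : ℝ) ≤ Real.pi - -Real.pi := by linarith [Real.pi_pos]
  simp only [integral_const, Measure.real, Measure.restrict_apply MeasurableSet.univ,
    Set.univ_inter, Real.volume_Ioo, ENNReal.toReal_ofReal hpi, Complex.real_smul, tailI]
  push_cast
  ring

/-- The linear substitution of the Abel transform. -/
theorem integral_abel_subst833 (g : ℝ → ℂ) (x : ℝ) {κ : ℝ} (hκ : 0 < κ) :
    (∫ ξ : ℝ, g (x + (κ * ξ) ^ 2)) = ((κ⁻¹ : ℝ) : ℂ) * abelT g x := by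
  have h := Measure.integral_comp_mul_left (fun v : ℝ => g (x + v ^ 2)) κ
  rw [h, abs_of_pos (inv_pos.2 hκ), Complex.real_smul]
  rfl

/-! ## The sections -/

/-- `diag(e^p, e^q) n(ξ)`. -/
def uR833 (p q ξ : ℝ) : GL (Fin 2) ℝ := dgR p q * unR ξ

/-- `diag(e^{p/2}, e^{q/2}) n(w)`. -/
def uC833 (p q : ℝ) (w : ℂ) : GL (Fin 2) ℂ := dgC (p / 2) (q / 2) * unC w

theorem coe_uR833 (p q ξ : ℝ) :
    (uR833 p q ξ : Matrix (Fin 2) (Fin 2) ℝ)
      = !![Real.exp p, Real.exp p * ξ; 0, Real.exp q] := by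
  unfold uR833
  rw [Units.val_mul, dgR_val569, unR_val569]
  simp only [Matrix.mul_fin_two, mul_zero, zero_mul, add_zero, zero_add, mul_one]

theorem coe_uC833 (p q : ℝ) (w : ℂ) :
    (uC833 p q w : Matrix (Fin 2) (Fin 2) ℂ)
      = !![((Real.sqrt (Real.exp p) : ℝ) : ℂ), ((Real.sqrt (Real.exp p) : ℝ) : ℂ) * w;
          0, ((Real.sqrt (Real.exp q) : ℝ) : ℂ)] := by
  unfold uC833
  rw [Units.val_mul, dgC_val441, unC_val441, ← Real.exp_half, ← Real.exp_half]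
  simp only [Matrix.mul_fin_two, mul_zero, zero_mul, add_zero, zero_add, mul_one]

theorem continuous_uR833 (p q : ℝ) : Continuous (uR833 p q) :=
  continuous_const.mul continuous_unR569

theorem det_uR833 (p q ξ : ℝ) :
    (uR833 p q ξ : Matrix (Fin 2) (Fin 2) ℝ).det = Real.exp (p + q) := by
  rw [coe_uR833, Matrix.det_fin_two_of, Real.exp_add]
  ring

theorem rhoP_uR833 (p q ξ : ℝ) :
    rhoP (uR833 p q ξ) = Real.cosh (p - q) + Real.exp (p - q) * ξ ^ 2 / 2 := by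
  rw [H281.rhoP_entries281, coe_uR833]
  simp only [Matrix.of_apply, Matrix.cons_val', Matrix.cons_val_zero, Matrix.cons_val_one,
    Matrix.cons_val_fin_one]
  rw [Real.cosh_eq, neg_sub, Real.exp_sub, Real.exp_sub]
  have h1 := Real.exp_pos p
  have h2 := Real.exp_pos q
  field_simp
  ring

theorem holPart_uR833 (p q ξ : ℝ) :
    holPart (uR833 p q ξ)
      = (((Real.exp p + Real.exp q) / 2 : ℝ) : ℂ)
        + ((-(Real.exp p * ξ) / 2 : ℝ) : ℂ) * Complex.I := by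
  unfold holPart
  rw [coe_uR833]
  simp only [Matrix.of_apply, Matrix.cons_val', Matrix.cons_val_zero, Matrix.cons_val_one,
    Matrix.cons_val_fin_one]
  push_cast
  ring

theorem normdet_uC833 (p q : ℝ) (w : ℂ) :
    ‖(uC833 p q w : Matrix (Fin 2) (Fin 2) ℂ).det‖ ^ 2 = Real.exp (p + q) := by
  unfold uC833
  rw [det_dgC_unC441, Complex.norm_real, Real.norm_eq_abs, abs_of_pos (Real.exp_pos _),
    ← Real.exp_nat_mul]
  congr 1
  push_cast
  ring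

theorem rhoQ_uC833 (p q : ℝ) (w : ℂ) :
    rhoQ (uC833 p q w)
      = Real.cosh ((p - q) / 2) + Real.exp ((p - q) / 2) * ‖w‖ ^ 2 / 2 := by
  unfold uC833
  rw [rhoQ_dgC_unC441]
  have e : p / 2 - q / 2 = (p - q) / 2 := by ring
  rw [e]

/-! ## The three integrals along the sections -/

theorem kappa_sq833 (t ξ : ℝ) :
    Real.exp t * ξ ^ 2 / 2 = (Real.exp (t / 2) / Real.sqrt 2 * ξ) ^ 2 := by
  have h1 : Real.exp (t / 2) ^ 2 = Real.exp t := by
    rw [← Real.exp_nat_mul]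
    congr 1
    push_cast
    ring
  rw [mul_pow, div_pow, Real.sq_sqrt (by norm_num : (0 : ℝ) ≤ 2), h1]
  ring

/-- Weight `0`: `∫ f₀(u ξ) dξ = κ⁻¹ (A g₀)(x)`, `κ = e^{t/2} / √2`. -/
theorem int_f0_833 {f₀ : GL (Fin 2) ℝ → ℂ} (hf₀ : IsArchTestR 0 f₀) (p q : ℝ) :
    (∫ ξ : ℝ, f₀ (uR833 p q ξ))
      = (((Real.exp ((p - q) / 2) / Real.sqrt 2)⁻¹ : ℝ) : ℂ) *
          abelT (prof0_634 f₀ (Real.exp (p + q))) (Real.cosh (p - q)) := by
  have hκ : 0 < Real.exp ((p - q) / 2) / Real.sqrt 2 := by positivity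
  rw [← integral_abel_subst833 _ _ hκ]
  refine integral_congr_ae (Filter.Eventually.of_forall fun ξ => ?_)
  show f₀ (uR833 p q ξ) = prof0_634 f₀ (Real.exp (p + q))
    (Real.cosh (p - q) + (Real.exp ((p - q) / 2) / Real.sqrt 2 * ξ) ^ 2)
  have hdet : 0 < (uR833 p q ξ : Matrix (Fin 2) (Fin 2) ℝ).det := by
    rw [det_uR833]
    exact Real.exp_pos _
  rw [realProf833 hf₀ _ hdet, det_uR833, rhoP_uR833, ← kappa_sq833]
  unfold wtPhase
  rw [zpow_zero, inv_one, one_mul]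

/-- The complex side: `∫ φ(u' w) dw = (2π / e^{t/2}) Ψ(cosh (t/2))`. -/
theorem int_phi833 {φ : GL (Fin 2) ℂ → ℂ} (hφ : IsArchTestC φ) (p q : ℝ) :
    (∫ w : ℂ, φ (uC833 p q w))
      = ((2 * Real.pi / Real.exp ((p - q) / 2) : ℝ) : ℂ) *
          tailI (profC634 φ (Real.exp (p + q))) (Real.cosh ((p - q) / 2)) := by
  rw [← integral_cplx_quad833 _ _ (Real.exp_pos _)]
  refine integral_congr_ae (Filter.Eventually.of_forall fun w => ?_)
  show φ (uC833 p q w) = profC634 φ (Real.exp (p + q))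
    (Real.cosh ((p - q) / 2) + Real.exp ((p - q) / 2) * ‖w‖ ^ 2 / 2)
  rw [cplxProf833 hφ, normdet_uC833, rhoQ_uC833]

/-! ## Weight `±1` -/

/-- The sum of the two conjugate phases. -/
theorem phase_sum833 {n : ℤ} (hn : n = 1 ∨ n = -1) (x y : ℝ) (hx : 0 < x) :
    ((((x : ℂ) + (y : ℂ) * Complex.I) / ((Real.sqrt (x ^ 2 + y ^ 2) : ℝ) : ℂ)) ^ n)⁻¹
      + ((((x : ℂ) + ((-y : ℝ) : ℂ) * Complex.I) / ((Real.sqrt (x ^ 2 + y ^ 2) : ℝ) : ℂ)) ^ n)⁻¹
      = ((2 * x / Real.sqrt (x ^ 2 + y ^ 2) : ℝ) : ℂ) := by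
  have hpos : 0 < x ^ 2 + y ^ 2 := by positivity
  have hN : 0 < Real.sqrt (x ^ 2 + y ^ 2) := Real.sqrt_pos.2 hpos
  have hN2' : ((Real.sqrt (x ^ 2 + y ^ 2) : ℝ) : ℂ) ^ 2 = (x : ℂ) ^ 2 + (y : ℂ) ^ 2 := by
    have := Real.sq_sqrt hpos.le
    exact_mod_cast this
  have hA0 : (x : ℂ) + (y : ℂ) * Complex.I ≠ 0 := by
    intro h
    have := congrArg Complex.re h
    simp at this
    exact hx.ne' this
  have hA0' : (x : ℂ) + ((-y : ℝ) : ℂ) * Complex.I ≠ 0 := by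
    intro h
    have := congrArg Complex.re h
    simp at this
    exact hx.ne' this
  have hprod0 : ((x : ℂ) + (y : ℂ) * Complex.I) * ((x : ℂ) + ((-y : ℝ) : ℂ) * Complex.I)
      = ((Real.sqrt (x ^ 2 + y ^ 2) : ℝ) : ℂ) ^ 2 := by
    rw [hN2']
    push_cast
    linear_combination (-(y : ℂ) ^ 2) * Complex.I_sq
  have hsum0 : ((x : ℂ) + (y : ℂ) * Complex.I) + ((x : ℂ) + ((-y : ℝ) : ℂ) * Complex.I)
      = 2 * (x : ℂ) := by
    push_cast
    ring
  have hrhs : ((2 * x / Real.sqrt (x ^ 2 + y ^ 2) : ℝ) : ℂ)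
      = 2 * (x : ℂ) / ((Real.sqrt (x ^ 2 + y ^ 2) : ℝ) : ℂ) := by
    push_cast
    ring
  rw [hrhs]
  generalize hAdef : (x : ℂ) + (y : ℂ) * Complex.I = A at *
  generalize hAdef' : (x : ℂ) + ((-y : ℝ) : ℂ) * Complex.I = A' at *
  generalize hNdef : ((Real.sqrt (x ^ 2 + y ^ 2) : ℝ) : ℂ) = N at *
  have hNc : N ≠ 0 := by
    rw [← hNdef]
    exact_mod_cast hN.ne'
  rcases hn with rfl | rfl
  · rw [zpow_one, zpow_one, inv_div, inv_div]
    field_simp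
    linear_combination (N ^ 2) * hsum0 - (2 * (x : ℂ)) * hprod0
  · rw [zpow_neg_one, zpow_neg_one, inv_inv, inv_inv]
    field_simp
    linear_combination hsum0

/-- The real form of the phase sum along the section. -/
theorem phase_real833 (p q ξ : ℝ) :
    2 * ((Real.exp p + Real.exp q) / 2) /
        Real.sqrt (((Real.exp p + Real.exp q) / 2) ^ 2 + (-(Real.exp p * ξ) / 2) ^ 2)
      = 2 * Real.sqrt 2 * Real.cosh ((p - q) / 2) /
          Real.sqrt (Real.cosh (p - q) + Real.exp (p - q) * ξ ^ 2 / 2 + 1) := by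
  have ha := Real.exp_pos p
  have hb := Real.exp_pos q
  set m : ℝ := Real.exp ((p + q) / 2) with hm
  have hmpos : 0 < m := Real.exp_pos _
  have hm2 : m ^ 2 = Real.exp p * Real.exp q := by
    rw [hm, ← Real.exp_nat_mul, ← Real.exp_add]
    congr 1
    push_cast
    ring
  have hx : (Real.exp p + Real.exp q) / 2 = m * Real.cosh ((p - q) / 2) := by
    rw [Real.cosh_eq, hm]
    have e1 : Real.exp ((p + q) / 2) * Real.exp ((p - q) / 2) = Real.exp p := by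
      rw [← Real.exp_add]
      congr 1
      ring
    have e2 : Real.exp ((p + q) / 2) * Real.exp (-((p - q) / 2)) = Real.exp q := by
      rw [← Real.exp_add]
      congr 1
      ring
    rw [← e1, ← e2]
    ring
  set ρ : ℝ := Real.cosh (p - q) + Real.exp (p - q) * ξ ^ 2 / 2 with hρ
  have hρ1 : 0 < ρ + 1 := by
    have h1 : 0 < Real.cosh (p - q) := Real.cosh_pos _
    have h2 : 0 ≤ Real.exp (p - q) * ξ ^ 2 / 2 := by positivity
    linarith
  have hkey : ((Real.exp p + Real.exp q) / 2) ^ 2 + (-(Real.exp p * ξ) / 2) ^ 2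
      = (m * Real.sqrt (ρ + 1) / Real.sqrt 2) ^ 2 := by
    have hR : (m * Real.sqrt (ρ + 1) / Real.sqrt 2) ^ 2 = m ^ 2 * (ρ + 1) / 2 := by
      rw [div_pow, mul_pow, Real.sq_sqrt hρ1.le, Real.sq_sqrt (by norm_num : (0 : ℝ) ≤ 2)]
    rw [hR, hm2, hρ, Real.cosh_eq, neg_sub, Real.exp_sub, Real.exp_sub]
    field_simp
    ring
  have hnn : 0 ≤ m * Real.sqrt (ρ + 1) / Real.sqrt 2 := by positivity
  rw [hkey, Real.sqrt_sq hnn, hx]
  have h2 : 0 < Real.sqrt 2 := Real.sqrt_pos.2 (by norm_num)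
  have h3 : 0 < Real.sqrt (ρ + 1) := Real.sqrt_pos.2 hρ1
  field_simp

/-- The symmetrised integrand of weight `±1`. -/
theorem f1_sym833 {n : ℤ} (hn : n = 1 ∨ n = -1) {f₁ : GL (Fin 2) ℝ → ℂ}
    (hf₁ : IsArchTestR n f₁) (p q ξ : ℝ) :
    f₁ (uR833 p q ξ) + f₁ (uR833 p q (-ξ))
      = ((2 * Real.sqrt 2 * Real.cosh ((p - q) / 2) : ℝ) : ℂ) *
          prof1_634 f₁ (Real.exp (p + q))
            (Real.cosh (p - q) + Real.exp (p - q) * ξ ^ 2 / 2) := by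
  have hdet : ∀ ξ' : ℝ, 0 < (uR833 p q ξ' : Matrix (Fin 2) (Fin 2) ℝ).det := by
    intro ξ'
    rw [det_uR833]
    exact Real.exp_pos _
  have hx : 0 < (Real.exp p + Real.exp q) / 2 := by positivity
  have hph : ∀ ξ' : ℝ, wtPhase n (uR833 p q ξ')
      = ((((((Real.exp p + Real.exp q) / 2 : ℝ) : ℂ)
          + ((-(Real.exp p * ξ') / 2 : ℝ) : ℂ) * Complex.I)
        / ((Real.sqrt (((Real.exp p + Real.exp q) / 2) ^ 2
            + (-(Real.exp p * ξ') / 2) ^ 2) : ℝ) : ℂ)) ^ n) := by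
    intro ξ'
    unfold wtPhase
    rw [holPart_uR833, Complex.norm_add_mul_I]
  have e1 : -(Real.exp p * -ξ) / 2 = -(-(Real.exp p * ξ) / 2) := by ring
  have e2 : (-(-(Real.exp p * ξ) / 2)) ^ 2 = (-(Real.exp p * ξ) / 2) ^ 2 := neg_sq _
  rw [realProf833 hf₁ _ (hdet ξ), realProf833 hf₁ _ (hdet (-ξ)), det_uR833, det_uR833,
    rhoP_uR833, rhoP_uR833, neg_sq, hph ξ, hph (-ξ), e1, e2, ← add_mul,
    phase_sum833 hn _ _ hx, phase_real833]
  unfold prof1_634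
  set ρ : ℝ := Real.cosh (p - q) + Real.exp (p - q) * ξ ^ 2 / 2 with hρ
  have hρ1 : 0 < ρ + 1 := by
    have h1 : 0 < Real.cosh (p - q) := Real.cosh_pos _
    have h2 : 0 ≤ Real.exp (p - q) * ξ ^ 2 / 2 := by positivity
    linarith
  have h3 : ((Real.sqrt (ρ + 1) : ℝ) : ℂ) ≠ 0 := by
    exact_mod_cast (Real.sqrt_pos.2 hρ1).ne'
  push_cast
  field_simp

/-- `ξ ↦ f(u ξ)` is integrable. -/
theorem integrable_section833 {n : ℤ} {f : GL (Fin 2) ℝ → ℂ} (hf : IsArchTestR n f)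
    (p q : ℝ) : Integrable (fun ξ : ℝ => f (uR833 p q ξ)) := by
  have hcont : Continuous (fun ξ : ℝ => f (uR833 p q ξ)) := hf.cont.comp (continuous_uR833 p q)
  obtain ⟨C, hC⟩ := exists_entry_boundR833 hf.supp 0 1
  refine hcont.integrable_of_hasCompactSupport ?_
  refine HasCompactSupport.intro (isCompact_closedBall (0 : ℝ) (|C| / Real.exp p)) fun ξ hξ => ?_
  apply hC
  have hξ' : |C| / Real.exp p < |ξ| := by
    simpa [Metric.mem_closedBall, Real.dist_eq] using hξ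
  have e : (uR833 p q ξ : Matrix (Fin 2) (Fin 2) ℝ) 0 1 = Real.exp p * ξ := by
    rw [coe_uR833]
    rfl
  rw [e, abs_mul, abs_of_pos (Real.exp_pos p)]
  rw [div_lt_iff₀ (Real.exp_pos p)] at hξ'
  calc C ≤ |C| := le_abs_self C
    _ < |ξ| * Real.exp p := hξ'
    _ = Real.exp p * |ξ| := mul_comm _ _

/-- Weight `±1`: `∫ f₁(u ξ) dξ = √2 cosh (t/2) κ⁻¹ (A G₁)(x)`, `κ = e^{t/2} / √2`. -/
theorem int_f1_833 {n : ℤ} (hn : n = 1 ∨ n = -1) {f₁ : GL (Fin 2) ℝ → ℂ}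
    (hf₁ : IsArchTestR n f₁) (p q : ℝ) :
    (∫ ξ : ℝ, f₁ (uR833 p q ξ))
      = ((Real.sqrt 2 * Real.cosh ((p - q) / 2) *
            (Real.exp ((p - q) / 2) / Real.sqrt 2)⁻¹ : ℝ) : ℂ) *
          abelT (prof1_634 f₁ (Real.exp (p + q))) (Real.cosh (p - q)) := by
  have hκ : 0 < Real.exp ((p - q) / 2) / Real.sqrt 2 := by positivity
  have hint := integrable_section833 hf₁ p q
  have e1 : (∫ ξ : ℝ, f₁ (uR833 p q (-ξ))) = ∫ ξ : ℝ, f₁ (uR833 p q ξ) :=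
    integral_neg_eq_self (fun ξ : ℝ => f₁ (uR833 p q ξ)) volume
  have e2 : (∫ ξ : ℝ, (f₁ (uR833 p q ξ) + f₁ (uR833 p q (-ξ))))
      = (∫ ξ : ℝ, f₁ (uR833 p q ξ)) + ∫ ξ : ℝ, f₁ (uR833 p q (-ξ)) :=
    integral_add hint hint.comp_neg
  have e3 : (∫ ξ : ℝ, (f₁ (uR833 p q ξ) + f₁ (uR833 p q (-ξ))))
      = ((2 * Real.sqrt 2 * Real.cosh ((p - q) / 2) : ℝ) : ℂ) *
          ((((Real.exp ((p - q) / 2) / Real.sqrt 2)⁻¹ : ℝ) : ℂ) *
            abelT (prof1_634 f₁ (Real.exp (p + q))) (Real.cosh (p - q))) := by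
    rw [← integral_abel_subst833 _ _ hκ, ← integral_const_mul]
    refine integral_congr_ae (Filter.Eventually.of_forall fun ξ => ?_)
    show f₁ (uR833 p q ξ) + f₁ (uR833 p q (-ξ)) = _
    rw [f1_sym833 hn hf₁ p q ξ, kappa_sq833]
  rw [e1] at e2
  rw [e2] at e3
  push_cast at e3 ⊢
  linear_combination (1 / 2 : ℂ) * e3

/-! ## The leaf -/

theorem cosh_half_arcosh833 {x : ℝ} (hx : 1 ≤ x) :
    Real.cosh (Real.arcosh x / 2) = Real.sqrt ((x + 1) / 2) := by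
  have h1 : Real.cosh (Real.arcosh x) = x := Real.cosh_arcosh hx
  have h2 : Real.cosh (Real.arcosh x) = 2 * Real.cosh (Real.arcosh x / 2) ^ 2 - 1 := by
    have e : Real.arcosh x = 2 * (Real.arcosh x / 2) := by ring
    conv_lhs => rw [e, Real.cosh_two_mul]
    have := Real.cosh_sq (Real.arcosh x / 2)
    linarith
  have h3 : (x + 1) / 2 = Real.cosh (Real.arcosh x / 2) ^ 2 := by
    rw [h1] at h2
    linarith
  rw [h3, Real.sqrt_sq (Real.cosh_pos _).le]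

theorem alg0_833 (E R2 X c π' Ψ : ℂ) (hE : E ≠ 0) (hR : R2 ≠ 0)
    (h : (E / R2)⁻¹ * X = c * (2 * π' / E * Ψ)) : X = 2 * π' * c * Ψ / R2 := by
  field_simp at h ⊢
  linear_combination h

theorem alg1_833 (E R2 S X c π' Ψ : ℂ) (hE : E ≠ 0) (hR : R2 ≠ 0) (hS : S ≠ 0)
    (h22 : R2 ^ 2 = 2) (h : R2 * S * (E / R2)⁻¹ * X = c * (2 * π' / E * Ψ)) :
    X = 2 * π' * c * Ψ / (2 * S) := by
  field_simp at h ⊢
  linear_combination (1 / 2 : ℂ) * h - (1 / 2 : ℂ) * S * X * h22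

/-- **T6.20e.2c `ProfAbelC634`**, VERBATIM. -/
theorem profAbelC833 : ProfAbelC634 := by
  intro c n hn φ f₀ f₁ hφ hf₀ hf₁ hA D hD
  have key : ∀ x : ℝ, 1 ≤ x →
      abelT (prof0_634 f₀ D) x
          = ((2 * Real.pi : ℝ) : ℂ) * c * tailI (profC634 φ D) (Real.sqrt ((x + 1) / 2)) /
              ((Real.sqrt 2 : ℝ) : ℂ) ∧
        abelT (prof1_634 f₁ D) x
          = ((2 * Real.pi : ℝ) : ℂ) * c * tailI (profC634 φ D) (Real.sqrt ((x + 1) / 2)) /
              ((2 * Real.sqrt ((x + 1) / 2) : ℝ) : ℂ) := by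
    intro x hx
    set t : ℝ := Real.arcosh x with ht
    set p : ℝ := Real.log D / 2 + t / 2 with hp
    set q : ℝ := Real.log D / 2 - t / 2 with hq
    have hpq : p + q = Real.log D := by rw [hp, hq]; ring
    have hpq' : p - q = t := by rw [hp, hq]; ring
    have hexp : Real.exp (p + q) = D := by rw [hpq, Real.exp_log hD]
    have hcosh : Real.cosh (p - q) = x := by rw [hpq', ht, Real.cosh_arcosh hx]
    have hhalf : Real.cosh ((p - q) / 2) = Real.sqrt ((x + 1) / 2) := by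
      rw [hpq', ht, cosh_half_arcosh833 hx]
    obtain ⟨h0, h1⟩ := hA (Real.exp p) (Real.exp q) (Real.exp_pos p) (Real.exp_pos q)
      (uR833 p q) (uC833 p q) (coe_uR833 p q) (coe_uC833 p q)
    rw [int_f0_833 hf₀ p q, int_phi833 hφ p q, hexp, hcosh, hhalf] at h0
    rw [int_f1_833 hn hf₁ p q, int_phi833 hφ p q, hexp, hcosh, hhalf] at h1
    have hE : ((Real.exp ((p - q) / 2) : ℝ) : ℂ) ≠ 0 := by
      exact_mod_cast (Real.exp_pos _).ne'
    have h2 : ((Real.sqrt 2 : ℝ) : ℂ) ≠ 0 := by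
      exact_mod_cast (Real.sqrt_pos.2 (by norm_num : (0 : ℝ) < 2)).ne'
    have h22 : ((Real.sqrt 2 : ℝ) : ℂ) ^ 2 = 2 := by
      have := Real.sq_sqrt (by norm_num : (0 : ℝ) ≤ 2)
      exact_mod_cast this
    have hS : ((Real.sqrt ((x + 1) / 2) : ℝ) : ℂ) ≠ 0 := by
      have : 0 < (x + 1) / 2 := by linarith
      exact_mod_cast (Real.sqrt_pos.2 this).ne'
    simp only [Complex.ofReal_mul, Complex.ofReal_div, Complex.ofReal_inv,
      Complex.ofReal_ofNat] at h0 h1 ⊢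
    exact ⟨alg0_833 _ _ _ _ _ _ hE h2 h0, alg1_833 _ _ _ _ _ _ _ hE h2 hS h22 h1⟩
  exact ⟨isProfile_prof0_833 hf₀ D, isProfile_prof1_833 hf₁ D, isProfile_profC833 hφ D,
    fun x hx => (key x hx).1, fun x hx => (key x hx).2⟩

end Fermat.Agent.LT.T6.H833

end
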